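import Fermat.Agent.ES.Coh.Defs

/-!
# S41 / K / Grp : the two degeneracy homomorphisms `Γ₀(N r) → Γ₀(N)` and the pull-backs of additive characters

* `inclA N r` : the inclusion;
* `conjB N r` : `g = (a, b; c, d) ↦ δ g δ⁻¹ = (a, r b; c / r, d)`, `δ = diag(r, 1)`;
* `resA N r A φ = φ ∘ inclA`, `resB N r A φ = φ ∘ conjB` on `Additive (Gamma0 N) →+ A`;
* both preserve `ES.Coh.IsParEll`.
-/

set_option autoImplicit false
set_option linter.unusedSectionVars false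

open CongruenceSubgroup Matrix.SpecialLinearGroup
open scoped MatrixGroups

namespace Fermat.Agent.S41.K

open Fermat.Agent.ES.Coh Fermat.Agent.S16.Shimura

theorem Gamma0_mul_le (N r : ℕ) : Gamma0 (N * r) ≤ Gamma0 N := by
  intro g hg
  rw [Gamma0_mem, ZMod.intCast_zmod_eq_zero_iff_dvd] at hg ⊢
  exact (Int.natCast_dvd_natCast.2 (dvd_mul_right N r)).trans hg

/-- the inclusion `Γ₀(N r) ⊆ Γ₀(N)`. -/
def inclA (N r : ℕ) : Gamma0 (N * r) →* Gamma0 N := Subgroup.inclusion (Gamma0_mul_le N r)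

@[simp]
theorem coe_inclA (N r : ℕ) (g : Gamma0 (N * r)) : (inclA N r g : SL(2, ℤ)) = (g : SL(2, ℤ)) := rfl

theorem dvd_lower (N r : ℕ) (g : Gamma0 (N * r)) : ((N * r : ℕ) : ℤ) ∣ (g : SL(2, ℤ)) 1 0 := by
  have := g.2
  rwa [Gamma0_mem, ZMod.intCast_zmod_eq_zero_iff_dvd] at this

theorem dvd_lower' (N r : ℕ) (g : Gamma0 (N * r)) : (r : ℤ) ∣ (g : SL(2, ℤ)) 1 0 :=
  (Int.natCast_dvd_natCast.2 (dvd_mul_left r N)).trans (dvd_lower N r g)

/-- the matrix `δ g δ⁻¹`. -/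
def conjMat (r : ℕ) (g : Matrix (Fin 2) (Fin 2) ℤ) : Matrix (Fin 2) (Fin 2) ℤ :=
  !![g 0 0, r * g 0 1; g 1 0 / r, g 1 1]

theorem conjMat_det (r : ℕ) [NeZero r] (g : Matrix (Fin 2) (Fin 2) ℤ) (h : (r : ℤ) ∣ g 1 0) :
    (conjMat r g).det = g.det := by
  obtain ⟨c, hc⟩ := h
  have hr' : (r : ℤ) ≠ 0 := by exact_mod_cast NeZero.ne r
  rw [conjMat, Matrix.det_fin_two_of, Matrix.det_fin_two g, hc, Int.mul_ediv_cancel_left _ hr']
  ring

theorem conjMat_mul (r : ℕ) [NeZero r] (g h : Matrix (Fin 2) (Fin 2) ℤ) (hg : (r : ℤ) ∣ g 1 0)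
    (hh : (r : ℤ) ∣ h 1 0) : conjMat r (g * h) = conjMat r g * conjMat r h := by
  obtain ⟨c, hc⟩ := hg
  obtain ⟨c', hc'⟩ := hh
  have hr' : (r : ℤ) ≠ 0 := by exact_mod_cast NeZero.ne r
  have e : (g * h) 1 0 / (r : ℤ) = c * h 0 0 + g 1 1 * c' := by
    rw [Matrix.mul_apply, Fin.sum_univ_two, hc, hc',
      show (r : ℤ) * c * h 0 0 + g 1 1 * (r * c') = r * (c * h 0 0 + g 1 1 * c') by ring,
      Int.mul_ediv_cancel_left _ hr']
  ext i j
  fin_cases i <;> fin_cases j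
  · show (g * h) 0 0 = (conjMat r g * conjMat r h) 0 0
    rw [Matrix.mul_apply, Matrix.mul_apply, Fin.sum_univ_two, Fin.sum_univ_two]
    show _ = g 0 0 * h 0 0 + r * g 0 1 * (h 1 0 / r)
    rw [hc', Int.mul_ediv_cancel_left _ hr']
    ring
  · show r * (g * h) 0 1 = (conjMat r g * conjMat r h) 0 1
    rw [Matrix.mul_apply, Matrix.mul_apply, Fin.sum_univ_two, Fin.sum_univ_two]
    show _ = g 0 0 * (r * h 0 1) + r * g 0 1 * h 1 1
    ring
  · show (g * h) 1 0 / (r : ℤ) = (conjMat r g * conjMat r h) 1 0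
    rw [e, Matrix.mul_apply, Fin.sum_univ_two]
    show _ = g 1 0 / r * h 0 0 + g 1 1 * (h 1 0 / r)
    rw [hc, hc', Int.mul_ediv_cancel_left _ hr', Int.mul_ediv_cancel_left _ hr']
  · show (g * h) 1 1 = (conjMat r g * conjMat r h) 1 1
    rw [Matrix.mul_apply, Matrix.mul_apply, Fin.sum_univ_two, Fin.sum_univ_two]
    show _ = g 1 0 / r * (r * h 0 1) + g 1 1 * h 1 1
    rw [hc, Int.mul_ediv_cancel_left _ hr']
    ring

/-- `δ g δ⁻¹` in `SL₂(ℤ)`. -/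
def conjSL (N r : ℕ) [NeZero r] (g : Gamma0 (N * r)) : SL(2, ℤ) :=
  ⟨conjMat r (g : SL(2, ℤ)), by
    rw [conjMat_det r _ (dvd_lower' N r g)]; exact (g : SL(2, ℤ)).det_coe⟩

theorem conjSL_mem (N r : ℕ) [NeZero r] (g : Gamma0 (N * r)) : conjSL N r g ∈ Gamma0 N := by
  rw [Gamma0_mem, ZMod.intCast_zmod_eq_zero_iff_dvd]
  obtain ⟨c, hc⟩ := dvd_lower N r g
  have hr' : (r : ℤ) ≠ 0 := by exact_mod_cast NeZero.ne r
  show (N : ℤ) ∣ (g : SL(2, ℤ)) 1 0 / r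
  rw [hc, show ((N * r : ℕ) : ℤ) * c = r * (N * c) by push_cast; ring,
    Int.mul_ediv_cancel_left _ hr']
  exact dvd_mul_right _ _

/-- `g ↦ δ g δ⁻¹`, `δ = diag(r, 1)`. -/
def conjB (N r : ℕ) [NeZero r] : Gamma0 (N * r) →* Gamma0 N :=
  MonoidHom.mk' (fun g => ⟨conjSL N r g, conjSL_mem N r g⟩) (fun g h => by
    apply Subtype.ext
    apply Subtype.ext
    exact conjMat_mul r _ _ (dvd_lower' N r g) (dvd_lower' N r h))

section entries

variable (N r : ℕ) [NeZero r] (g : Gamma0 (N * r))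

theorem conjB_00 : (conjB N r g : SL(2, ℤ)) 0 0 = (g : SL(2, ℤ)) 0 0 := rfl

theorem conjB_01 : (conjB N r g : SL(2, ℤ)) 0 1 = r * (g : SL(2, ℤ)) 0 1 := rfl

theorem conjB_10 : r * (conjB N r g : SL(2, ℤ)) 1 0 = (g : SL(2, ℤ)) 1 0 :=
  Int.mul_ediv_cancel' (dvd_lower' N r g)

theorem conjB_11 : (conjB N r g : SL(2, ℤ)) 1 1 = (g : SL(2, ℤ)) 1 1 := rfl

theorem trace_conjB : ((conjB N r g : SL(2, ℤ)) : Matrix (Fin 2) (Fin 2) ℤ).trace
    = ((g : SL(2, ℤ)) : Matrix (Fin 2) (Fin 2) ℤ).trace := by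
  rw [Matrix.trace_fin_two, Matrix.trace_fin_two]
  rfl

end entries

/-! ### pull-back of additive characters -/

/-- `φ ↦ φ|Γ₀(N r)`. -/
def resA (N r : ℕ) (A : Type) [AddCommGroup A] :
    (Additive (Gamma0 N) →+ A) →+ (Additive (Gamma0 (N * r)) →+ A) where
  toFun φ := φ.comp (MonoidHom.toAdditive (inclA N r))
  map_zero' := rfl
  map_add' _ _ := rfl

/-- `φ ↦ φ(δ · δ⁻¹)`. -/
def resB (N r : ℕ) [NeZero r] (A : Type) [AddCommGroup A] :
    (Additive (Gamma0 N) →+ A) →+ (Additive (Gamma0 (N * r)) →+ A) where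
  toFun φ := φ.comp (MonoidHom.toAdditive (conjB N r))
  map_zero' := rfl
  map_add' _ _ := rfl

section res

variable {N r : ℕ} [NeZero r] {A : Type} [AddCommGroup A]

theorem resA_apply (φ : Additive (Gamma0 N) →+ A) (g : Gamma0 (N * r)) :
    resA N r A φ (Additive.ofMul g) = φ (Additive.ofMul (inclA N r g)) := rfl

theorem resB_apply (φ : Additive (Gamma0 N) →+ A) (g : Gamma0 (N * r)) :
    resB N r A φ (Additive.ofMul g) = φ (Additive.ofMul (conjB N r g)) := rfl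

theorem isParEll_resA {φ : Additive (Gamma0 N) →+ A} (hφ : IsParEll N φ) :
    IsParEll (N * r) (resA N r A φ) :=
  ⟨fun γ hγ => hφ.1 (inclA N r γ) hγ, fun γ hγ => hφ.2 (inclA N r γ) (by rw [← map_pow, hγ, map_one])⟩

theorem isParEll_resB {φ : Additive (Gamma0 N) →+ A} (hφ : IsParEll N φ) :
    IsParEll (N * r) (resB N r A φ) :=
  ⟨fun γ hγ => hφ.1 (conjB N r γ) (by rw [trace_conjB]; exact hγ),
    fun γ hγ => hφ.2 (conjB N r γ) (by rw [← map_pow, hγ, map_one])⟩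

/-- naturality in the coefficients. -/
theorem resA_comp {B : Type} [AddCommGroup B] (g : A →+ B) (φ : Additive (Gamma0 N) →+ A) :
    resA N r B (g.comp φ) = g.comp (resA N r A φ) := rfl

theorem resB_comp {B : Type} [AddCommGroup B] (g : A →+ B) (φ : Additive (Gamma0 N) →+ A) :
    resB N r B (g.comp φ) = g.comp (resB N r A φ) := rfl

end res

end Fermat.Agent.S41.K
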