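import Fermat.Agent.ES.An.Main
import Fermat.Agent.ES.B.Module
import Fermat.Agent.S41.K.Grp

/-!
# S41 / K / Mer : the analytic dictionary for the two degeneracy maps `α, β : F_N → F_{N r}`

* `toMer_alpha` : `α f` is the same meromorphic function on `ℍ` as `f`;
* `toMer_beta`  : `β f` is `τ ↦ f(r τ)`;
* `hasChar_alpha`, `hasChar_beta` : the characters of the `m`-th roots are `χ ∘ inclA`, `χ ∘ conjB`.
-/

set_option autoImplicit false
set_option linter.unusedSectionVars false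

open AlgebraicCurve ModularCurve UpperHalfPlane CongruenceSubgroup
open scoped MatrixGroups

namespace Fermat.Agent.S41.K

open Fermat.Agent.S24 Fermat.Agent.ES Fermat.Agent.ES.An
open P2MW.S_ModularForm_heckeT_slash_eq_self_of_mem_Gamma0.ModularForm.HeckeSlashInvariance

noncomputable section

variable (N r : ℕ) [NeZero N] [NeZero r]

instance instNeZeroMul : NeZero (N * r) := ⟨Nat.mul_ne_zero (NeZero.ne N) (NeZero.ne r)⟩

/-- `δ = diag(r, 1)` in `GL₂(ℝ)⁺`. -/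
def dP : GLp := ⟨ModularForm.heckeDiagMatrix r, ModularForm.det_heckeDiagMatrix_pos r⟩

theorem coe_dP_smul (τ : ℍ) : ((dP r • τ : ℍ) : ℂ) = (r : ℂ) * τ :=
  ModularForm.coe_heckeDiagMatrix_smul (NeZero.ne r) τ

/-- `(δ g δ⁻¹) δ = δ g`. -/
theorem slp_conjB_mul_dP (g : Gamma0 (N * r)) :
    slp (conjB N r g : SL(2, ℤ)) * dP r = dP r * slp (g : SL(2, ℤ)) := by
  apply Subtype.ext
  apply Units.ext
  have h10 : ((g : SL(2, ℤ)) 1 0 : ℝ) = r * ((conjB N r g : SL(2, ℤ)) 1 0 : ℝ) := by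
    exact_mod_cast (conjB_10 N r g).symm
  show ((Matrix.SpecialLinearGroup.mapGL ℝ (conjB N r g : SL(2, ℤ)) : GL (Fin 2) ℝ) :
      Matrix (Fin 2) (Fin 2) ℝ) * ((ModularForm.heckeDiagMatrix r : GL (Fin 2) ℝ) :
      Matrix (Fin 2) (Fin 2) ℝ)
    = ((ModularForm.heckeDiagMatrix r : GL (Fin 2) ℝ) : Matrix (Fin 2) (Fin 2) ℝ)
      * ((Matrix.SpecialLinearGroup.mapGL ℝ (g : SL(2, ℤ)) : GL (Fin 2) ℝ) :
      Matrix (Fin 2) (Fin 2) ℝ)
  rw [ModularForm.val_heckeDiagMatrix (NeZero.ne r)]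
  ext i j
  fin_cases i <;> fin_cases j <;>
    simp [Matrix.mul_apply, Fin.sum_univ_two, conjB_00, conjB_01, conjB_11, h10, mul_comm]

/-- `u(r τ)` has `q`-expansion `V_r x`. -/
theorem hasLau_cmp_dP {u : Mer} {x : LaurentSeries ℂ} (hu : HasLau 1 u x) :
    HasLau 1 (cmp (dP r) u) (Vq ℂ r x) := by
  obtain ⟨v, rfl, rfl⟩ := hu
  obtain ⟨a, b, hb, rfl⟩ := IsFractionRing.div_surjective (A := HolCusp 1) v
  have key : ∀ a : HolCusp 1, HasLau 1 (cmp (dP r) (algebraMap Hol Mer (cuspIncl 1 a)))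
      (Vq ℂ r (laurent 1 a)) := by
    intro a
    obtain ⟨g, hg, hgl⟩ := HeckeLau.exists_comp (dP r) r 1 0 1 r one_ne_zero (by ring)
      (fun τ => by rw [coe_dP_smul]; simp) a
    rw [HeckeLau.expU_zero, twist_one] at hgl
    rw [cmp_algebraMap, ← hgl]
    have : cmpHol (dP r) (cuspIncl 1 a) = cuspIncl 1 g := Subtype.ext hg.symm
    rw [this]
    exact HeckeLau.hasLau_of_holCusp g
  rw [map_div₀, map_div₀, map_div₀, map_div₀, cuspToMer_algebraMap, cuspToMer_algebraMap,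
    lauC_algebraMap, lauC_algebraMap]
  exact (key a).div (key b)

theorem toMer_alpha (f : FN N) :
    toMer (N * r) (bc (N * r) (heckeAlphaBar Kb N r f)) = toMer N (bc N f) := by
  refine (hasLau_toMer (N * r) _).eq_of_eq ?_
  have h := hasLau_toMer N (bc N f)
  rw [coe_bc] at h ⊢
  rw [coe_heckeAlphaBar]
  exact h

theorem toMer_beta (f : FN N) :
    toMer (N * r) (bc (N * r) (heckeBetaBar Kb N r f)) = cmp (dP r) (toMer N (bc N f)) := by
  refine (hasLau_toMer (N * r) _).eq_of_eq ?_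
  have h := hasLau_cmp_dP r (hasLau_toMer N (bc N f))
  rw [coe_bc, ← coeffMap_Vq] at h
  rw [coe_bc, coe_heckeBetaBar]
  exact h

variable {N r}

theorem hasChar_alpha {m : ℕ} {f : FN N} {χ : Gamma0 N →* ℂˣ} (h : HasChar N m f χ) :
    HasChar (N * r) m (heckeAlphaBar Kb N r f) (χ.comp (inclA N r)) := by
  obtain ⟨w, hw0, hw, hχ⟩ := h
  exact ⟨w, hw0, by rw [hw, toMer_alpha], fun γ => hχ (inclA N r γ)⟩

theorem hasChar_beta {m : ℕ} {f : FN N} {χ : Gamma0 N →* ℂˣ} (h : HasChar N m f χ) :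
    HasChar (N * r) m (heckeBetaBar Kb N r f) (χ.comp (conjB N r)) := by
  obtain ⟨w, hw0, hw, hχ⟩ := h
  refine ⟨cmp (dP r) w, (map_ne_zero _).2 hw0, by rw [← map_pow, hw, toMer_beta], fun γ => ?_⟩
  rw [← cmp_mul, ← slp_conjB_mul_dP, cmp_mul, hχ (conjB N r γ), map_smul]
  rfl

end

end Fermat.Agent.S41.K
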