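import Fermat.Agent.ES.Glue.Surj
import Fermat.Agent.SS.Formal.Norm
import Fermat.Agent.S41.K.Mer

/-!
# S41 / K / Lat : the degeneracy maps on the lattices `Λ_N = Hom_{par,ell}(Γ₀(N), ℤ) = ℤ^(rk N)`

* `A1 N r`, `A2 N r : Matrix (Fin (rk (N*r))) (Fin (rk N)) ℤ` : the matrices of `resA`, `resB`;
* `comb_A1`, `comb_A2` : `comb (N*r) K (A_i c) = res_i (comb N K c)` for every commutative ring `K`;
* `chr_pullA`, `chr_pullB` : the character of `pullA x`, `pullB x`;
* `iota_A1`, `iota_A2` : `iota (A_i c) = pull_i (iota c)`.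
-/

set_option autoImplicit false
set_option linter.unusedSectionVars false

open AlgebraicCurve ModularCurve CongruenceSubgroup
open scoped MatrixGroups

namespace Fermat.Agent.S41.K

open Fermat.Agent.ES Fermat.Agent.ES.An Fermat.Agent.ES.Coh Fermat.Agent.ES.Glue Fermat.Agent.SS

noncomputable section

variable (N r : ℕ) [NeZero N] [NeZero r]

/-- the matrix of `resA`. -/
def A1 : Matrix (Fin (rk (N * r))) (Fin (rk N)) ℤ :=
  Matrix.of fun j i => lam N i (Additive.ofMul (inclA N r (gam (N * r) j)))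

/-- the matrix of `resB`. -/
def A2 : Matrix (Fin (rk (N * r))) (Fin (rk N)) ℤ :=
  Matrix.of fun j i => lam N i (Additive.ofMul (conjB N r (gam (N * r) j)))

theorem A1_apply (j : Fin (rk (N * r))) (i : Fin (rk N)) :
    A1 N r j i = lam N i (Additive.ofMul (inclA N r (gam (N * r) j))) := rfl

theorem A2_apply (j : Fin (rk (N * r))) (i : Fin (rk N)) :
    A2 N r j i = lam N i (Additive.ofMul (conjB N r (gam (N * r) j))) := rfl

theorem resA_lam (i : Fin (rk N)) (g : Additive (Gamma0 (N * r))) :
    resA N r ℤ (lam N i) g = ∑ j, A1 N r j i * lam (N * r) j g := by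
  rw [expand (N * r) _ (isParEll_resA (lam_isParEll N i)) g]
  exact Finset.sum_congr rfl fun j _ => by rw [smul_eq_mul, mul_comm]; rfl

theorem resB_lam (i : Fin (rk N)) (g : Additive (Gamma0 (N * r))) :
    resB N r ℤ (lam N i) g = ∑ j, A2 N r j i * lam (N * r) j g := by
  rw [expand (N * r) _ (isParEll_resB (lam_isParEll N i)) g]
  exact Finset.sum_congr rfl fun j _ => by rw [smul_eq_mul, mul_comm]; rfl

theorem comb_A1 {K : Type} [CommRing K] (c : Fin (rk N) → K) :
    comb (N * r) K (((A1 N r).map (Int.cast : ℤ → K)).mulVec c) = resA N r K (comb N K c) := by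
  refine AddMonoidHom.ext fun g => ?_
  have h : ∀ i, ((lam N i (MonoidHom.toAdditive (inclA N r) g) : ℤ) : K)
      = ∑ j, (A1 N r j i : K) * (lam (N * r) j g : K) := fun i => by
    have := resA_lam N r i g
    rw [show lam N i (MonoidHom.toAdditive (inclA N r) g) = resA N r ℤ (lam N i) g from rfl, this]
    push_cast
    rfl
  show _ = comb N K c (MonoidHom.toAdditive (inclA N r) g)
  rw [comb_apply, comb_apply]
  simp only [h, Matrix.mulVec, dotProduct, Matrix.map_apply, Finset.sum_mul, Finset.mul_sum]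
  rw [Finset.sum_comm]
  exact Finset.sum_congr rfl fun i _ => Finset.sum_congr rfl fun j _ => by ring

theorem comb_A2 {K : Type} [CommRing K] (c : Fin (rk N) → K) :
    comb (N * r) K (((A2 N r).map (Int.cast : ℤ → K)).mulVec c) = resB N r K (comb N K c) := by
  refine AddMonoidHom.ext fun g => ?_
  have h : ∀ i, ((lam N i (MonoidHom.toAdditive (conjB N r) g) : ℤ) : K)
      = ∑ j, (A2 N r j i : K) * (lam (N * r) j g : K) := fun i => by
    have := resB_lam N r i g
    rw [show lam N i (MonoidHom.toAdditive (conjB N r) g) = resB N r ℤ (lam N i) g from rfl, this]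
    push_cast
    rfl
  show _ = comb N K c (MonoidHom.toAdditive (conjB N r) g)
  rw [comb_apply, comb_apply]
  simp only [h, Matrix.mulVec, dotProduct, Matrix.map_apply, Finset.sum_mul, Finset.mul_sum]
  rw [Finset.sum_comm]
  exact Finset.sum_congr rfl fun i _ => Finset.sum_congr rfl fun j _ => by ring

theorem comb_A1_int (c : Fin (rk N) → ℤ) :
    comb (N * r) ℤ ((A1 N r).mulVec c) = resA N r ℤ (comb N ℤ c) := by
  rw [← comb_A1]
  congr 2

theorem comb_A2_int (c : Fin (rk N) → ℤ) :
    comb (N * r) ℤ ((A2 N r).mulVec c) = resB N r ℤ (comb N ℤ c) := by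
  rw [← comb_A2]
  congr 2

variable {N r} {m : ℕ}

/-- the character of `pullA x`. -/
theorem chr_pullA (hm : 0 < m) (x : Kum N m) :
    chr hm (pullA N r m x) = Additive.ofMul ((chr hm x).toMul.comp (inclA N r)) := by
  obtain ⟨f, rfl⟩ := Kum.mk_surjective x
  rw [pullA_mk, chr_mk, chr_mk]
  congr 1
  exact chrD_eq hm (hasChar_alpha (chrD_spec hm f))

/-- the character of `pullB x`. -/
theorem chr_pullB (hm : 0 < m) (x : Kum N m) :
    chr hm (pullB N r m x) = Additive.ofMul ((chr hm x).toMul.comp (conjB N r)) := by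
  obtain ⟨f, rfl⟩ := Kum.mk_surjective x
  rw [pullB_mk, chr_mk, chr_mk]
  congr 1
  exact chrD_eq hm (hasChar_beta (chrD_spec hm f))

theorem iota_A1 (hm : 0 < m) (c : Fin (rk N) → ℤ) :
    iota hm ((A1 N r).mulVec c) = pullA N r m (iota hm c) := by
  apply chr_injective hm
  rw [chr_pullA, chr_iota, chr_iota, comb_A1_int]
  rfl

theorem iota_A2 (hm : 0 < m) (c : Fin (rk N) → ℤ) :
    iota hm ((A2 N r).mulVec c) = pullB N r m (iota hm c) := by
  apply chr_injective hm
  rw [chr_pullB, chr_iota, chr_iota, comb_A2_int]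
  rfl

end

end Fermat.Agent.S41.K
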