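import Fermat.Agent.S41.K.Hecke

/-!
# S41 / K / Main : Ihara's lemma, from additive characters to vectors and to Kummer classes

* `IharaHom N r p S a` : the statement of block I (Ihara's lemma for eigen-characters `Γ₀(N) → ZMod p`);
* `iharaHom_of_entries` : from the entry-wise form (IF-I) of `S41/Ih`;
* `ihara_vec` : the form needed by `E1.saturation` (coordinates of `ES/Coh`);
* `ihara_kum` : the form on `Kum N p` (IF-K).
-/

set_option autoImplicit false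
set_option linter.unusedSectionVars false

open AlgebraicCurve ModularCurve CongruenceSubgroup
open scoped MatrixGroups

namespace Fermat.Agent.S41.K

open Fermat.Agent.ES Fermat.Agent.ES.An Fermat.Agent.ES.Coh Fermat.Agent.ES.Glue Fermat.Agent.SS

noncomputable section

/-- **Ihara's lemma for eigen-characters** (the statement of block I). -/
def IharaHom (N r p : ℕ) [NeZero N] [NeZero r] (S : Finset ℕ) (a : ℕ → ℤ) : Prop :=
  ∀ φ1 φ2 : Additive (Gamma0 N) →+ ZMod p, IsParEll N φ1 → IsParEll N φ2 →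
    (∀ (l : ℕ) [Fact l.Prime] (hlN : ¬ l ∣ N), l ∉ S → heckeHom N l hlN (ZMod p) φ1 = a l • φ1) →
    (∀ (l : ℕ) [Fact l.Prime] (hlN : ¬ l ∣ N), l ∉ S → heckeHom N l hlN (ZMod p) φ2 = a l • φ2) →
    resA N r (ZMod p) φ1 + resB N r (ZMod p) φ2 = 0 → φ1 = 0 ∧ φ2 = 0

variable {N r p : ℕ} [NeZero N] [NeZero r] {S : Finset ℕ} {a : ℕ → ℤ}

theorem eq_inclA_of_coe {g : Gamma0 (N * r)} {g1 : Gamma0 N}
    (h : (g1 : SL(2, ℤ)) = (g : SL(2, ℤ))) : g1 = inclA N r g := Subtype.ext h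

theorem eq_conjB_of_entries {g : Gamma0 (N * r)} {g2 : Gamma0 N}
    (h00 : (g2 : SL(2, ℤ)) 0 0 = (g : SL(2, ℤ)) 0 0)
    (h01 : (g2 : SL(2, ℤ)) 0 1 = r * (g : SL(2, ℤ)) 0 1)
    (h10 : r * (g2 : SL(2, ℤ)) 1 0 = (g : SL(2, ℤ)) 1 0)
    (h11 : (g2 : SL(2, ℤ)) 1 1 = (g : SL(2, ℤ)) 1 1) : g2 = conjB N r g := by
  apply Subtype.ext
  ext i j
  have hr : (r : ℤ) ≠ 0 := by exact_mod_cast NeZero.ne r
  fin_cases i <;> fin_cases j
  · exact h00
  · exact h01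
  · exact mul_left_cancel₀ hr (h10.trans (conjB_10 N r g).symm)
  · exact h11

/-- the relation (R1), entry-wise. -/
theorem rel_of_res {φ1 φ2 : Additive (Gamma0 N) →+ ZMod p}
    (h : resA N r (ZMod p) φ1 + resB N r (ZMod p) φ2 = 0) (g : Gamma0 (N * r)) (g1 g2 : Gamma0 N)
    (h1 : (g1 : SL(2, ℤ)) = (g : SL(2, ℤ)))
    (h00 : (g2 : SL(2, ℤ)) 0 0 = (g : SL(2, ℤ)) 0 0)
    (h01 : (g2 : SL(2, ℤ)) 0 1 = r * (g : SL(2, ℤ)) 0 1)
    (h10 : r * (g2 : SL(2, ℤ)) 1 0 = (g : SL(2, ℤ)) 1 0)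
    (h11 : (g2 : SL(2, ℤ)) 1 1 = (g : SL(2, ℤ)) 1 1) :
    φ1 (Additive.ofMul g1) + φ2 (Additive.ofMul g2) = 0 := by
  rw [eq_inclA_of_coe h1, eq_conjB_of_entries h00 h01 h10 h11]
  exact DFunLike.congr_fun h (Additive.ofMul g)

/-! ### vectors -/

theorem comb_add' {M : ℕ} [NeZero M] {K : Type} [CommRing K] (c c' : Fin (rk M) → K) :
    comb M K (c + c') = comb M K c + comb M K c' := by
  refine AddMonoidHom.ext fun g => ?_
  simp [comb_apply, add_mul, Finset.sum_add_distrib]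

theorem comb_zero' {M : ℕ} [NeZero M] {K : Type} [CommRing K] : comb M K 0 = 0 := by
  refine AddMonoidHom.ext fun g => ?_
  simp [comb_apply]

theorem heckeHom_comb_matT {K : Type} [CommRing K] (ℓ : D.GoodPrime N) (c : Fin (rk N) → K) :
    (haveI : Fact ℓ.1.Prime := ⟨ℓ.2.1⟩; heckeHom N ℓ.1 ℓ.2.2 K (comb N K c))
      = comb N K (((matT N ℓ).map (Int.cast : ℤ → K)).mulVec c) := by
  have : Fact ℓ.1.Prime := ⟨ℓ.2.1⟩
  rw [heckeHom_comb]
  congr 1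
  funext j
  simp only [matT, Matrix.mulVec, dotProduct, Matrix.map_apply, Matrix.transpose_apply]
  exact Finset.sum_congr rfl fun i _ => mul_comm _ _

theorem zsmul_comb {K : Type} [CommRing K] (n : ℤ) (c : Fin (rk N) → K) :
    n • comb N K c = comb N K ((n : K) • c) := by
  rw [comb_smul]
  refine AddMonoidHom.ext fun g => ?_
  simp

/-- **Ihara's lemma in coordinates.** -/
theorem ihara_vec (hI : IharaHom N r p S a) (c1 c2 : Fin (rk N) → ZMod p)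
    (h1 : ∀ ℓ : D.GoodPrime N, ℓ.1 ∉ S →
      ((matT N ℓ).map (Int.cast : ℤ → ZMod p)).mulVec c1 = (a ℓ.1 : ZMod p) • c1)
    (h2 : ∀ ℓ : D.GoodPrime N, ℓ.1 ∉ S →
      ((matT N ℓ).map (Int.cast : ℤ → ZMod p)).mulVec c2 = (a ℓ.1 : ZMod p) • c2)
    (h : ((A1 N r).map (Int.cast : ℤ → ZMod p)).mulVec c1
      + ((A2 N r).map (Int.cast : ℤ → ZMod p)).mulVec c2 = 0) : c1 = 0 ∧ c2 = 0 := by
  have key : ∀ c : Fin (rk N) → ZMod p, (∀ ℓ : D.GoodPrime N, ℓ.1 ∉ S →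
      ((matT N ℓ).map (Int.cast : ℤ → ZMod p)).mulVec c = (a ℓ.1 : ZMod p) • c) →
      ∀ (l : ℕ) [Fact l.Prime] (hlN : ¬ l ∣ N), l ∉ S →
        heckeHom N l hlN (ZMod p) (comb N (ZMod p) c) = a l • comb N (ZMod p) c := by
    intro c hc l _ hlN hlS
    have e := heckeHom_comb_matT (K := ZMod p) (⟨l, Fact.out, hlN⟩ : D.GoodPrime N) c
    rw [hc ⟨l, Fact.out, hlN⟩ hlS, ← zsmul_comb] at e
    exact e
  obtain ⟨e1, e2⟩ := hI (comb N (ZMod p) c1) (comb N (ZMod p) c2) (isParEll_comb N c1)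
    (isParEll_comb N c2) (key c1 h1) (key c2 h2) (by
      rw [← comb_A1, ← comb_A2, ← comb_add', h, comb_zero'])
  exact ⟨comb_injective N (e1.trans comb_zero'.symm), comb_injective N (e2.trans comb_zero'.symm)⟩

/-! ### Kummer classes -/

theorem cast_eq_zero_of_iota {M : ℕ} [NeZero M] (hp : 0 < p) (v : Fin (rk M) → ℤ)
    (h : iota (N := M) hp v = 0) : (fun j => ((v j : ℤ) : ZMod p)) = 0 := by
  obtain ⟨y, rfl⟩ := iota_ker hp v h
  funext j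
  simp

theorem iota_eq_zero_of_cast {M : ℕ} [NeZero M] (hp : 0 < p) (v : Fin (rk M) → ℤ)
    (h : (fun j => ((v j : ℤ) : ZMod p)) = 0) : iota (N := M) hp v = 0 := by
  have h1 : ∀ j, (p : ℤ) ∣ v j := fun j =>
    (ZMod.intCast_zmod_eq_zero_iff_dvd _ _).1 (congrFun h j)
  choose y hy using h1
  have h2 : v = p • y := by
    funext j
    rw [hy j]
    simp
  rw [h2, map_nsmul, Kum.nsmul_eq_zero]

theorem cast_mulVec {X Y : Type*} [Fintype Y] (M : Matrix X Y ℤ) (c : Y → ℤ) :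
    (fun j => (((M.mulVec c) j : ℤ) : ZMod p))
      = (M.map (Int.cast : ℤ → ZMod p)).mulVec (fun i => ((c i : ℤ) : ZMod p)) := by
  funext j
  exact RingHom.map_mulVec (Int.castRingHom (ZMod p)) M c j

/-- **Ihara's lemma on the Kummer groups** (IF-K): `h1`, `h2` are `S44.Soft.mem_XX.1 _`. -/
theorem ihara_kum (hp : 0 < p) (hI : IharaHom N r p S a) {a1 a2 : Kum N p}
    (h1 : ∀ (ℓ : ℕ) [NeZero ℓ] (hℓ : ℓ.Prime) (hℓN : ¬ ℓ ∣ N), ℓ ∉ S →
      heckeKum N ℓ hℓ hℓN p a1 = a ℓ • a1)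
    (h2 : ∀ (ℓ : ℕ) [NeZero ℓ] (hℓ : ℓ.Prime) (hℓN : ¬ ℓ ∣ N), ℓ ∉ S →
      heckeKum N ℓ hℓ hℓN p a2 = a ℓ • a2)
    (h : pullA N r p a1 + pullB N r p a2 = 0) : a1 = 0 ∧ a2 = 0 := by
  obtain ⟨c1, rfl⟩ := iota_surjective hp a1
  obtain ⟨c2, rfl⟩ := iota_surjective hp a2
  have key : ∀ c : Fin (rk N) → ℤ, (∀ (ℓ : ℕ) [NeZero ℓ] (hℓ : ℓ.Prime) (hℓN : ¬ ℓ ∣ N), ℓ ∉ S →
      heckeKum N ℓ hℓ hℓN p (iota hp c) = a ℓ • iota hp c) →
      ∀ ℓ : D.GoodPrime N, ℓ.1 ∉ S →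
        ((matT N ℓ).map (Int.cast : ℤ → ZMod p)).mulVec (fun i => ((c i : ℤ) : ZMod p))
          = (a ℓ.1 : ZMod p) • (fun i => ((c i : ℤ) : ZMod p)) := by
    intro c hc ℓ hℓS
    have : NeZero ℓ.1 := ⟨ℓ.2.1.ne_zero⟩
    have e : iota hp ((matT N ℓ).mulVec c - a ℓ.1 • c) = 0 := by
      rw [map_sub, map_zsmul, iota_matT, sub_eq_zero]
      exact hc ℓ.1 ℓ.2.1 ℓ.2.2 hℓS
    have e2 := cast_eq_zero_of_iota hp _ e
    rw [← cast_mulVec]
    funext j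
    have e3 := congrFun e2 j
    simp only [Pi.sub_apply, Pi.smul_apply, smul_eq_mul, Int.cast_sub, Int.cast_mul,
      Pi.zero_apply] at e3
    simpa [sub_eq_zero] using e3
  have e : iota hp ((A1 N r).mulVec c1 + (A2 N r).mulVec c2) = 0 := by
    rw [map_add, iota_A1, iota_A2, h]
  have e2 := cast_eq_zero_of_iota hp _ e
  obtain ⟨z1, z2⟩ := ihara_vec hI _ _ (key c1 h1) (key c2 h2) (by
    rw [← cast_mulVec, ← cast_mulVec, ← e2]
    funext j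
    simp)
  exact ⟨iota_eq_zero_of_cast hp c1 z1, iota_eq_zero_of_cast hp c2 z2⟩

end

end Fermat.Agent.S41.K
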