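import Fermat.Agent.S41.K.Lat

/-!
# S41 / K / Hecke : the degeneracy maps commute with the Hecke operators `T_ℓ`, `ℓ ∤ N r`

* `heckeKum_pullA`, `heckeKum_pullB` : on the Kummer groups (every `m`), from the formal `q`-expansions;
* `matT_mul_A1`, `matT_mul_A2`       : on the lattices (`matT (N*r) ℓ' * A_i = A_i * matT N ℓ`);
* `heckeHom_resA`, `heckeHom_resB`   : on `comb`'s with coefficients in any commutative ring.
-/

set_option autoImplicit false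
set_option linter.unusedSectionVars false

open AlgebraicCurve ModularCurve CongruenceSubgroup
open scoped MatrixGroups

namespace Fermat.Agent.S41.K

open Fermat.Agent.ES Fermat.Agent.ES.An Fermat.Agent.ES.Coh Fermat.Agent.ES.Glue Fermat.Agent.SS

noncomputable section

/-! ### formal series (copies of `S44.XD.Hecke_*`, to keep the imports light) -/

theorem twist_Vq {K : Type*} [Field K] (p : ℕ) [NeZero p] (z : Kˣ) (x : LaurentSeries K) :
    twist z (Vq K p x) = Vq K p (twist (z ^ p) x) := by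
  ext n
  rw [twist_coeff]
  by_cases hn : (p : ℤ) ∣ n
  · obtain ⟨m, rfl⟩ := hn
    rw [qExpand_coeff_mul, qExpand_coeff_mul, twist_coeff, zpow_mul, zpow_natCast]
  · rw [qExpand_coeff_of_not_dvd p _ hn, qExpand_coeff_of_not_dvd p _ hn, mul_zero]

theorem pow_bijective_rootsOfUnity {K : Type*} [Field K] (ℓ p : ℕ) [NeZero ℓ] (h : ℓ.Coprime p) :
    Function.Bijective (fun z : rootsOfUnity ℓ K => z ^ p) := by
  refine Finite.injective_iff_bijective.mp ?_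
  intro z w hzw
  have hzw' : z ^ p = w ^ p := hzw
  have h1 : (z * w⁻¹) ^ p = 1 := by rw [mul_pow, inv_pow, hzw', mul_inv_cancel]
  have h2 : (z * w⁻¹) ^ ℓ = 1 := by
    apply Subtype.ext
    exact (mem_rootsOfUnity _ _).mp (z * w⁻¹).2
  have h3 := pow_gcd_eq_one.mpr ⟨h2, h1⟩
  rw [Nat.Coprime.gcd_eq_one h, pow_one] at h3
  exact mul_inv_eq_one.mp h3

theorem twistProd_Vq {K : Type*} [Field K] (ℓ p : ℕ) [NeZero ℓ] [NeZero p] (h : ℓ.Coprime p)
    (x : LaurentSeries K) : twistProd ℓ (Vq K p x) = Vq K p (twistProd ℓ x) := by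
  unfold twistProd
  rw [map_prod]
  simp only [twist_Vq]
  exact Fintype.prod_bijective _ (pow_bijective_rootsOfUnity (K := K) ℓ p h) _ _ (fun z => rfl)

theorem contract_Vq {K : Type*} [Field K] (ℓ p : ℕ) [NeZero ℓ] [NeZero p] (h : ℓ.Coprime p)
    (y : LaurentSeries K) : contract ℓ (Vq K p y) = Vq K p (contract ℓ y) := by
  ext n
  rw [contract_coeff]
  by_cases hn : (p : ℤ) ∣ n
  · obtain ⟨m, rfl⟩ := hn
    rw [qExpand_coeff_mul, contract_coeff, mul_left_comm, qExpand_coeff_mul]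
  · rw [qExpand_coeff_of_not_dvd p _ hn, qExpand_coeff_of_not_dvd p]
    intro hd
    have hcop : IsCoprime (p : ℤ) (ℓ : ℤ) := Nat.isCoprime_iff_coprime.mpr h.symm
    exact hn (hcop.dvd_of_dvd_mul_left hd)

theorem heckeSer_Vq' {K : Type*} [Field K] (ℓ p : ℕ) [NeZero ℓ] [NeZero p] (h : ℓ.Coprime p)
    (x : LaurentSeries K) : heckeSer ℓ (Vq K p x) = Vq K p (heckeSer ℓ x) := by
  have hne : NeZero (ℓ * p) := ⟨mul_ne_zero (NeZero.ne ℓ) (NeZero.ne p)⟩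
  have hne' : NeZero (p * ℓ) := ⟨mul_ne_zero (NeZero.ne p) (NeZero.ne ℓ)⟩
  rw [heckeSer, heckeSer, map_mul, normSer, normSer, twistProd_Vq ℓ p h,
    contract_Vq ℓ p h, qExpand_qExpand, qExpand_qExpand, qExpand_congr (mul_comm ℓ p)]

/-! ### the Kummer groups -/

variable {N r : ℕ} [NeZero N] [NeZero r]

theorem heckeKum_pullA (ℓ : ℕ) [NeZero ℓ] (hℓ : ℓ.Prime) (hℓN : ¬ ℓ ∣ N) (hℓNr : ¬ ℓ ∣ N * r)
    (m : ℕ) (x : Kum N m) :
    heckeKum (N * r) ℓ hℓ hℓNr m (pullA N r m x) = pullA N r m (heckeKum N ℓ hℓ hℓN m x) := by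
  obtain ⟨f, rfl⟩ := Kum.mk_surjective x
  rw [pullA_mk, heckeKum_mk, heckeKum_mk, pullA_mk]
  refine mk_congr (Subtype.ext ?_)
  show heckeSer ℓ ((heckeAlphaBar Qb N r (f : (FF N)ˣ) : FF (N * r)) : LaurentSeries Qb)
    = ((heckeAlphaBar Qb N r (heckeF N ℓ hℓ hℓN (f : (FF N)ˣ)) : FF (N * r)) : LaurentSeries Qb)
  rw [coe_heckeAlphaBar, coe_heckeAlphaBar, coe_heckeF]

theorem heckeKum_pullB (ℓ : ℕ) [NeZero ℓ] (hℓ : ℓ.Prime) (hℓN : ¬ ℓ ∣ N) (hℓNr : ¬ ℓ ∣ N * r)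
    (m : ℕ) (x : Kum N m) :
    heckeKum (N * r) ℓ hℓ hℓNr m (pullB N r m x) = pullB N r m (heckeKum N ℓ hℓ hℓN m x) := by
  obtain ⟨f, rfl⟩ := Kum.mk_surjective x
  rw [pullB_mk, heckeKum_mk, heckeKum_mk, pullB_mk]
  refine mk_congr (Subtype.ext ?_)
  show heckeSer ℓ ((heckeBetaBar Qb N r (f : (FF N)ˣ) : FF (N * r)) : LaurentSeries Qb)
    = ((heckeBetaBar Qb N r (heckeF N ℓ hℓ hℓN (f : (FF N)ˣ)) : FF (N * r)) : LaurentSeries Qb)
  have hcop : ℓ.Coprime r :=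
    (Nat.Prime.coprime_iff_not_dvd hℓ).2 fun h => hℓNr (Dvd.dvd.mul_left h N)
  rw [coe_heckeBetaBar, coe_heckeBetaBar, coe_heckeF]
  exact heckeSer_Vq' ℓ r hcop _

/-! ### the lattices -/

/-- an integral vector divisible by every `m > 0` vanishes. -/
theorem eq_zero_of_forall_iota {M : ℕ} [NeZero M] (v : Fin (rk M) → ℤ)
    (h : ∀ m : ℕ, ∀ hm : 0 < m, iota (N := M) hm v = 0) : v = 0 := by
  funext j
  obtain ⟨y, hy⟩ := iota_ker (Nat.succ_pos (v j).natAbs) v (h _ (Nat.succ_pos _))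
  have h1 : v j = ((v j).natAbs + 1 : ℕ) * y j := by
    have := congrFun hy j
    simpa using this
  show v j = 0
  by_contra h0
  have h2 : (((v j).natAbs + 1 : ℕ) : ℤ) ∣ v j := ⟨_, h1⟩
  have h3 := Int.natAbs_le_of_dvd_ne_zero h2 h0
  rw [Int.natAbs_natCast] at h3
  omega

/-- a good prime of level `N r` as a good prime of level `N`. -/
def GoodPrime.down (ℓ : D.GoodPrime (N * r)) : D.GoodPrime N :=
  ⟨ℓ.1, ℓ.2.1, fun h => ℓ.2.2 (Dvd.dvd.mul_right h r)⟩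

theorem matT_mulVec_A1 (ℓ : D.GoodPrime (N * r)) (c : Fin (rk N) → ℤ) :
    (matT (N * r) ℓ).mulVec ((A1 N r).mulVec c)
      = (A1 N r).mulVec ((matT N (GoodPrime.down ℓ)).mulVec c) := by
  rw [← sub_eq_zero]
  refine eq_zero_of_forall_iota _ fun m hm => ?_
  have : NeZero ℓ.1 := ⟨ℓ.2.1.ne_zero⟩
  rw [map_sub, sub_eq_zero, iota_matT, iota_A1, iota_A1, iota_matT]
  exact heckeKum_pullA ℓ.1 ℓ.2.1 (GoodPrime.down ℓ).2.2 ℓ.2.2 m _

theorem matT_mulVec_A2 (ℓ : D.GoodPrime (N * r)) (c : Fin (rk N) → ℤ) :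
    (matT (N * r) ℓ).mulVec ((A2 N r).mulVec c)
      = (A2 N r).mulVec ((matT N (GoodPrime.down ℓ)).mulVec c) := by
  rw [← sub_eq_zero]
  refine eq_zero_of_forall_iota _ fun m hm => ?_
  have : NeZero ℓ.1 := ⟨ℓ.2.1.ne_zero⟩
  rw [map_sub, sub_eq_zero, iota_matT, iota_A2, iota_A2, iota_matT]
  exact heckeKum_pullB ℓ.1 ℓ.2.1 (GoodPrime.down ℓ).2.2 ℓ.2.2 m _

theorem matT_mul_A1 (ℓ : D.GoodPrime (N * r)) :
    matT (N * r) ℓ * A1 N r = A1 N r * matT N (GoodPrime.down ℓ) := by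
  apply Matrix.toLin'.injective
  refine LinearMap.ext fun c => ?_
  rw [Matrix.toLin'_mul, Matrix.toLin'_mul]
  simp only [LinearMap.comp_apply, Matrix.toLin'_apply]
  exact matT_mulVec_A1 ℓ c

theorem matT_mul_A2 (ℓ : D.GoodPrime (N * r)) :
    matT (N * r) ℓ * A2 N r = A2 N r * matT N (GoodPrime.down ℓ) := by
  apply Matrix.toLin'.injective
  refine LinearMap.ext fun c => ?_
  rw [Matrix.toLin'_mul, Matrix.toLin'_mul]
  simp only [LinearMap.comp_apply, Matrix.toLin'_apply]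
  exact matT_mulVec_A2 ℓ c

end

end Fermat.Agent.S41.K
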